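import Fermat.Agent.S21.Dim
import Fermat.Agent.S24.GenusFormula
import Fermat.Prelude.Def_ModularCurve_GenusNumerics

/-!
# S21 — [S21-ASM]: assembly (prefix `asm21_`)

`asm21_main_of` : S21 from S20 (`dim S₂(Γ₀(N)) = g`), linearity of the period map, vanishing of
the periods of parabolic elements, injectivity of the pair of period maps, and the dimension bound
`s21_dim`.
-/

set_option autoImplicit false

namespace Fermat.Agent.S21

open MulAction Subgroup Module CongruenceSubgroup
open Fermat.Agent.S24 ModularCurve ModularCurve.Period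
open scoped MatrixGroups

variable (N : ℕ) [NeZero N]

omit [NeZero N] in
/-- The range of the pair of period maps consists of parabolic homomorphisms. -/
theorem asm21_range_le (hLin : ExistsPeriodMapLinear N)
    (hPar : ∀ f : CuspForm (Gamma0 N) 2, periodMap N f ∈ parabolicHoms ℂ (Gamma0 N) ℂ) :
    LinearMap.range (periodHomPair N) ≤ parabolicHoms ℂ (Gamma0 N) ℂ := by
  obtain ⟨pml, hpml, hdef⟩ := periodHomPair_def N hLin
  rintro _ ⟨⟨f, g⟩, rfl⟩
  rw [hdef]
  simp only [LinearMap.coprod_apply, LinearMap.comp_apply, LinearMap.add_apply,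
    LinearMap.sub_apply, LinearMap.id_apply]
  have hf : pml f ∈ parabolicHoms ℂ (Gamma0 N) ℂ := by rw [hpml]; exact hPar f
  have hg : pml g ∈ parabolicHoms ℂ (Gamma0 N) ℂ := by rw [hpml]; exact hPar g
  exact add_mem (add_mem hf (charInvolution_mem_parabolicHoms N ℂ ℂ hf))
    (sub_mem hg (charInvolution_mem_parabolicHoms N ℂ ℂ hg))

/-- The dimension of the space of parabolic homomorphisms is at most `2 g`. -/
theorem asm21_finrank_le (g : ℕ) (hg : (g : ℚ) = genusFormula N) :
    Module.finrank ℂ (parabolicHoms ℂ (Gamma0 N) ℂ) ≤ 2 * g := by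
  obtain ⟨g', hg', hgz⟩ := mg_genusFormula N
  have hgg : g' = g := by
    have : (g' : ℚ) = (g : ℚ) := by rw [hg', hg]
    exact_mod_cast this
  subst hgg
  have h1 := (s21_dim N).2
  rw [mg_card N] at h1
  omega

/-- **[S21-ASM]** S21 from S20 and the packages LIN, PAR, INJ, DIM. -/
theorem asm21_main_of
    (h20 : (Module.finrank ℂ (CuspForm (Gamma0 N) 2) : ℚ) = genusFormula N)
    (hLin : ExistsPeriodMapLinear N)
    (hPar : ∀ f : CuspForm (Gamma0 N) 2, periodMap N f ∈ parabolicHoms ℂ (Gamma0 N) ℂ)
    (hInj : Function.Injective (periodHomPair N)) :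
    Function.Injective (periodHomPair N)
      ∧ LinearMap.range (periodHomPair N) = parabolicHoms ℂ (Gamma0 N) ℂ := by
  refine ⟨hInj, ?_⟩
  have hfin : Module.Finite ℂ (parabolicHoms ℂ (Gamma0 N) ℂ) := (s21_dim N).1
  have hle := asm21_range_le N hLin hPar
  -- finiteness of the source
  have hcod : Function.Injective
      ((periodHomPair N).codRestrict (parabolicHoms ℂ (Gamma0 N) ℂ)
        (fun x => hle (LinearMap.mem_range_self _ x))) := by
    intro x y hxy
    apply hInj
    exact congrArg Subtype.val hxy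
  have hfin2 : Module.Finite ℂ (CuspForm (Gamma0 N) 2 × CuspForm (Gamma0 N) 2) :=
    Module.Finite.of_injective _ hcod
  have hfin1 : Module.Finite ℂ (CuspForm (Gamma0 N) 2) :=
    Module.Finite.of_injective (LinearMap.inl ℂ (CuspForm (Gamma0 N) 2) (CuspForm (Gamma0 N) 2))
      LinearMap.inl_injective
  -- dimension count
  have e1 : finrank ℂ (LinearMap.range (periodHomPair N))
      = finrank ℂ (CuspForm (Gamma0 N) 2 × CuspForm (Gamma0 N) 2) :=
    LinearMap.finrank_range_of_inj hInj
  have e2 : finrank ℂ (CuspForm (Gamma0 N) 2 × CuspForm (Gamma0 N) 2)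
      = finrank ℂ (CuspForm (Gamma0 N) 2) + finrank ℂ (CuspForm (Gamma0 N) 2) :=
    Module.finrank_prod
  have e3 := asm21_finrank_le N (finrank ℂ (CuspForm (Gamma0 N) 2)) h20
  exact Submodule.eq_of_le_of_finrank_le hle (by omega)

end Fermat.Agent.S21
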