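import Fermat.Agent.S21.InjConj

/-!
# S21, package INJ: injectivity of the Eichler–Shimura map `periodHomPair`

If `(f, g)` is in the kernel, then with `A = F_f + F_g`, `B = F_f - F_g` (cuspidal primitives) the
function `A + B ∘ c`, `c τ = -conj τ`, is `Γ₀(N)`-invariant; hence the holomorphic functions
`A ± conj ∘ B ∘ c` have invariant real resp. imaginary part, their exponentials have invariant
norm, and `inj_core` shows that they are constant.
-/

set_option autoImplicit false

noncomputable section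

namespace Fermat.Agent.S21

open Fermat.Agent.S22 ModularCurve ModularCurve.Period UpperHalfPlane CongruenceSubgroup
open Filter Topology Function ComplexConjugate
open scoped MatrixGroups ModularForm Manifold

/-- If `exp (a Φ)` is constant (`a ≠ 0`), the derivative of `Φ` vanishes. -/
theorem inj_deriv_zero_of_exp_const {Φ φ : ℍ → ℂ} (hΦ : IsPrim Φ φ) (a : ℂ) (ha : a ≠ 0)
    (hc : ∃ c : ℂ, ∀ z, Complex.exp (a * Φ z) = c) (τ : ℍ) : φ τ = 0 := by
  obtain ⟨c, hc⟩ := hc
  have h1 : HasDerivAt (fun z : ℂ => Complex.exp (a * (Φ ∘ ofComplex) z))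
      (Complex.exp (a * (Φ ∘ ofComplex) (τ : ℂ)) * (a * φ τ)) (τ : ℂ) :=
    ((hΦ τ).const_mul a).cexp
  have h2 : HasDerivAt (fun z : ℂ => Complex.exp (a * (Φ ∘ ofComplex) z)) 0 (τ : ℂ) := by
    refine (hasDerivAt_const (τ : ℂ) c).congr_of_eventuallyEq ?_
    filter_upwards with z
    simp only [Function.comp_apply]
    exact hc _
  have h3 := h1.unique h2
  rcases mul_eq_zero.mp h3 with h | h
  · exact absurd h (Complex.exp_ne_zero _)
  · rcases mul_eq_zero.mp h with h | h
    · exact absurd h ha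
    · exact h

/-- The cuspidal primitive composed with `δ` is nice. -/
theorem inj_nice_prim (N : ℕ) [NeZero N] {h : ℝ}
    (hh : ∀ (f : CuspForm (Gamma0 N) 2) (g : SL(2, ℤ)), IsCuspidal h (⇑f ∣[(2 : ℤ)] g))
    (f : CuspForm (Gamma0 N) 2) (δ : SL(2, ℤ)) :
    inj_Nice h (fun z => cuspPrim ⇑f (δ • z)) := by
  obtain ⟨c, hc⟩ := s21p_comp_eq N f δ
  have h1 : inj_Nice h (cuspPrim (⇑f ∣[(2 : ℤ)] δ)) :=
    inj_Nice.of_isCuspidal (isCuspidal_cuspPrim (hh f δ))
  exact (h1.add (inj_Nice.const h c)).congr hc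

theorem inj_kernel_eq_zero (N : ℕ) [NeZero N] (f g : CuspForm (Gamma0 N) 2)
    (hker : ∀ γ : Gamma0 N,
      periodMap N f (Additive.ofMul γ) + periodMap N f (Additive.ofMul (jConjGamma0 N γ))
        + (periodMap N g (Additive.ofMul γ) - periodMap N g (Additive.ofMul (jConjGamma0 N γ)))
        = 0) :
    f = 0 ∧ g = 0 := by
  obtain ⟨h, hh⟩ := exists_isCuspidal_slash N 2
  have hpos : 0 < h := (hh f 1).pos
  set F := cuspPrim ⇑f with hF
  set G := cuspPrim ⇑g with hG
  set A : ℍ → ℂ := F + G with hA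
  set B : ℍ → ℂ := F - G with hB
  have hFp : IsPrim F ⇑f := s21p_isPrim N f
  have hGp : IsPrim G ⇑g := s21p_isPrim N g
  have hAp : IsPrim A (⇑f + ⇑g) := hFp.add hGp
  have hBp : IsPrim B (⇑f - ⇑g) := by
    have := hFp.add (hGp.const_smul (-1))
    have e1 : F + (-1 : ℂ) • G = B := by rw [hB]; funext z; simp [sub_eq_add_neg]
    have e2 : (⇑f : ℍ → ℂ) + (-1 : ℂ) • ⇑g = ⇑f - ⇑g := by funext z; simp [sub_eq_add_neg]
    rwa [e1, e2] at this
  -- the invariant harmonic function
  have hinv : ∀ γ ∈ Gamma0 N, ∀ z : ℍ, A (γ • z) + B (inj_c (γ • z)) = A z + B (inj_c z) := by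
    intro γ hγ z
    have hk := hker ⟨γ, hγ⟩
    rw [s21p_periodMap_eq N f ⟨γ, hγ⟩ z, s21p_periodMap_eq N g ⟨γ, hγ⟩ z,
      s21p_periodMap_eq N f (jConjGamma0 N ⟨γ, hγ⟩) (inj_c z),
      s21p_periodMap_eq N g (jConjGamma0 N ⟨γ, hγ⟩) (inj_c z)] at hk
    simp only [jConjGamma0_coe] at hk
    rw [inj_c_smul]
    simp only [hA, hB, Pi.add_apply, Pi.sub_apply]
    linear_combination hk
  -- niceness
  have hAn : ∀ δ : SL(2, ℤ), inj_Nice h (fun z => A (δ • z)) := fun δ =>
    (inj_nice_prim N hh f δ).add (inj_nice_prim N hh g δ)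
  have hBn : ∀ δ : SL(2, ℤ), inj_Nice h (fun z => B (δ • z)) := fun δ =>
    (inj_nice_prim N hh f δ).sub (inj_nice_prim N hh g δ)
  have hBcn : ∀ δ : SL(2, ℤ), inj_Nice h (fun z => inj_conj B (δ • z)) := fun δ => by
    rw [inj_conj_comp_smul]
    exact (hBn (jConjSL δ)).conj
  -- first function: `Φ₁ = A + conj ∘ B ∘ c`, invariant real part
  have hc1 : ∃ c : ℂ, ∀ z, Complex.exp ((1 : ℂ) * (A + inj_conj B) z) = c := by
    refine inj_core N _ h hpos ?_ ?_
    · intro γ hγ z
      rw [Complex.norm_exp, Complex.norm_exp]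
      congr 1
      have := congrArg Complex.re (hinv γ hγ z)
      simpa using this
    · intro δ
      have := ((hAn δ).add (hBcn δ)).cexp
      refine this.congr (fun z => ?_)
      simp
  -- second function: `Φ₂ = A - conj ∘ B ∘ c`, invariant imaginary part
  have hc2 : ∃ c : ℂ, ∀ z, Complex.exp ((-Complex.I) * (A - inj_conj B) z) = c := by
    refine inj_core N _ h hpos ?_ ?_
    · intro γ hγ z
      rw [Complex.norm_exp, Complex.norm_exp]
      congr 1
      have := congrArg Complex.im (hinv γ hγ z)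
      simp only [Complex.add_im] at this
      simp only [Pi.sub_apply, inj_conj_apply, neg_mul, Complex.neg_re, Complex.mul_re,
        Complex.I_re, Complex.I_im, zero_mul, one_mul, zero_sub, neg_neg, Complex.sub_im,
        Complex.conj_im, sub_neg_eq_add]
      exact this
    · intro δ
      have := (((hAn δ).sub (hBcn δ)).const_mul (-Complex.I)).cexp
      refine this.congr (fun z => ?_)
      simp
  -- derivatives
  have hBc : IsPrim (inj_conj B) (fun τ => -(conj ((⇑f - ⇑g) (inj_c τ)))) := inj_isPrim_conj hBp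
  have hΦ₁ : IsPrim (A + inj_conj B)
      ((⇑f + ⇑g) + fun τ => -(conj ((⇑f - ⇑g) (inj_c τ)))) := hAp.add hBc
  have hΦ₂ : IsPrim (A - inj_conj B)
      ((⇑f + ⇑g) + (-1 : ℂ) • fun τ => -(conj ((⇑f - ⇑g) (inj_c τ)))) := by
    have := hAp.add (hBc.const_smul (-1))
    have e1 : A + (-1 : ℂ) • inj_conj B = A - inj_conj B := by
      funext z; simp [sub_eq_add_neg]
    rwa [e1] at this
  have hd1 := inj_deriv_zero_of_exp_const hΦ₁ 1 one_ne_zero hc1
  have hd2 := inj_deriv_zero_of_exp_const hΦ₂ (-Complex.I)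
    (neg_ne_zero.mpr Complex.I_ne_zero) hc2
  have hsum : ∀ τ : ℍ, f τ + g τ = 0 := by
    intro τ
    have h1 := hd1 τ
    have h2 := hd2 τ
    simp only [Pi.add_apply, Pi.sub_apply, Pi.smul_apply, smul_eq_mul] at h1 h2
    linear_combination (1 / 2 : ℂ) * h1 + (1 / 2 : ℂ) * h2
  have hdiff : ∀ τ : ℍ, f τ - g τ = 0 := by
    intro τ
    have h1 := hd1 (inj_c τ)
    have h2 := hd2 (inj_c τ)
    simp only [Pi.add_apply, Pi.sub_apply, Pi.smul_apply, smul_eq_mul, inj_c_inj_c] at h1 h2
    have h3 : conj (f τ - g τ) = 0 := by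
      linear_combination (-1 / 2 : ℂ) * h1 + (1 / 2 : ℂ) * h2
    exact (map_eq_zero (starRingEnd ℂ)).mp h3
  refine ⟨?_, ?_⟩
  · ext τ
    have h1 := hsum τ
    have h2 := hdiff τ
    show f τ = 0
    linear_combination (1 / 2 : ℂ) * h1 + (1 / 2 : ℂ) * h2
  · ext τ
    have h1 := hsum τ
    have h2 := hdiff τ
    show g τ = 0
    linear_combination (1 / 2 : ℂ) * h1 - (1 / 2 : ℂ) * h2

/-- [S21-INJ] Eichler–Shimura injectivity. -/
theorem s21_injective (N : ℕ) [NeZero N] : Function.Injective (periodHomPair N) := by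
  obtain ⟨pml, hpml, hdef⟩ := periodHomPair_def N (s21_existsPeriodMapLinear N)
  rw [injective_iff_map_eq_zero]
  rintro ⟨f, g⟩ h0
  rw [hdef] at h0
  have key := inj_kernel_eq_zero N f g (fun γ => by
    have := congrArg (fun ψ : Additive (Gamma0 N) →+ ℂ => ψ (Additive.ofMul γ)) h0
    simp only [LinearMap.coprod_apply, LinearMap.comp_apply, LinearMap.add_apply,
      LinearMap.sub_apply, LinearMap.id_apply, AddMonoidHom.add_apply, AddMonoidHom.sub_apply,
      charInvolution_apply, toMul_ofMul, hpml, AddMonoidHom.zero_apply] at this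
    exact this)
  rw [key.1, key.2]
  rfl

end Fermat.Agent.S21
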