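import Fermat.Agent.S21.Prim

/-!
# S21, package PAR: periods of parabolic elements vanish

An element of `SL(2, ℤ)` with `trace ^ 2 = 4` is conjugate in `SL(2, ℤ)` to an upper triangular
matrix, which acts on `ℍ` as a translation `T ^ n`; the period along it is then the difference of
two limits of `F ∘ δ` at `i∞`.
-/

set_option autoImplicit false

noncomputable section

namespace Fermat.Agent.S21

open Fermat.Agent.S22 ModularCurve ModularCurve.Period UpperHalfPlane CongruenceSubgroup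
open Filter Topology Matrix
open scoped MatrixGroups ModularForm Manifold

/-- The `(1, 0)` entry of `g * γ * g⁻¹`. -/
theorem s21p_mul_entry (g γ : SL(2, ℤ)) (i j : Fin 2) :
    (g * γ : SL(2, ℤ)) i j = g i 0 * γ 0 j + g i 1 * γ 1 j := by
  rw [Matrix.SpecialLinearGroup.coe_mul, Matrix.mul_apply, Fin.sum_univ_two]

theorem s21p_conj_entry (g γ : SL(2, ℤ)) :
    (g * γ * g⁻¹ : SL(2, ℤ)) 1 0
      = (g 1 0 * γ 0 0 + g 1 1 * γ 1 0) * g 1 1 - (g 1 0 * γ 0 1 + g 1 1 * γ 1 1) * g 1 0 := by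
  obtain ⟨h, hh⟩ : ∃ h : SL(2, ℤ), h = g * γ * g⁻¹ := ⟨_, rfl⟩
  rw [← hh]
  have e : h * g = g * γ := by rw [hh]; group
  have e0 : (h * g : SL(2, ℤ)) 1 0 = (g * γ : SL(2, ℤ)) 1 0 := by rw [e]
  have e1 : (h * g : SL(2, ℤ)) 1 1 = (g * γ : SL(2, ℤ)) 1 1 := by rw [e]
  rw [s21p_mul_entry, s21p_mul_entry] at e0 e1
  have hdet : g 0 0 * g 1 1 - g 0 1 * g 1 0 = 1 := by
    have := g.det_coe
    rwa [Matrix.det_fin_two] at this
  linear_combination (-(h 1 0)) * hdet + g 1 1 * e0 - g 1 0 * e1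

/-- An element of `SL(2, ℤ)` of trace `±2` is conjugate to an upper triangular matrix. -/
theorem s21p_exists_conj_upper (γ : SL(2, ℤ))
    (htr : (γ : Matrix (Fin 2) (Fin 2) ℤ).trace ^ 2 = 4) :
    ∃ g : SL(2, ℤ), (g * γ * g⁻¹ : SL(2, ℤ)) 1 0 = 0 := by
  have hdet : γ 0 0 * γ 1 1 - γ 0 1 * γ 1 0 = 1 := by
    have h := γ.det_coe
    rwa [Matrix.det_fin_two] at h
  rw [Matrix.trace_fin_two] at htr
  by_cases hc : γ 1 0 = 0
  · exact ⟨1, by simpa using hc⟩
  -- `γ 0 0 - γ 1 1` is even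
  have hpar : ∃ x : ℤ, γ 0 0 - γ 1 1 = 2 * x := by
    have h2 : γ 0 0 + γ 1 1 = 2 ∨ γ 0 0 + γ 1 1 = -2 := by
      have h3 : (γ 0 0 + γ 1 1 - 2) * (γ 0 0 + γ 1 1 + 2) = 0 := by linear_combination htr
      rcases mul_eq_zero.mp h3 with h | h
      · left; linarith
      · right; linarith
    rcases h2 with h | h
    · exact ⟨γ 0 0 - 1, by linarith⟩
    · exact ⟨γ 0 0 + 1, by linarith⟩
  obtain ⟨x, hx⟩ := hpar
  have hxx : x * x + γ 0 1 * γ 1 0 = 0 := by
    have h4 : 4 * (x * x + γ 0 1 * γ 1 0) = 0 := by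
      have : (γ 0 0 - γ 1 1) ^ 2 = 4 * (x * x) := by rw [hx]; ring
      linear_combination -this + htr - 4 * hdet
    linarith
  have hgpos : 0 < Int.gcd x (γ 1 0) := Int.gcd_pos_of_ne_zero_right _ hc
  obtain ⟨p, q, hpq, hp, hq⟩ := Int.exists_gcd_one hgpos
  set G : ℤ := (Int.gcd x (γ 1 0) : ℤ) with hG
  have hG0 : G ≠ 0 := by
    have : (0 : ℤ) < G := Int.natCast_pos.mpr hgpos
    exact this.ne'
  have hcop : IsCoprime (-q) p := by
    have : IsCoprime p q := Int.isCoprime_iff_gcd_eq_one.mpr hpq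
    exact this.symm.neg_left
  obtain ⟨g, -, hg⟩ := ModularGroup.bottom_row_surj (R := ℤ)
    (show (![-q, p] : Fin 2 → ℤ) ∈ {cd : Fin 2 → ℤ | IsCoprime (cd 0) (cd 1)} by simpa using hcop)
  have hg0 : g 1 0 = -q := by
    have := congrFun hg 0
    simpa using this
  have hg1 : g 1 1 = p := by
    have := congrFun hg 1
    simpa using this
  refine ⟨g, ?_⟩
  rw [s21p_conj_entry, hg0, hg1]
  -- `G ^ 2 * (c p² - 2 x p q - b q²) = - c (x² + b c) = 0`
  have key : G * G * ((-q * γ 0 0 + p * γ 1 0) * p - (-q * γ 0 1 + p * γ 1 1) * -q) = 0 := by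
    have e1 : G * p = x := by rw [hp]; ring
    have e2 : G * q = γ 1 0 := by rw [hq]; ring
    have : G * G * ((-q * γ 0 0 + p * γ 1 0) * p - (-q * γ 0 1 + p * γ 1 1) * -q)
        = γ 1 0 * (G * p) * (G * p) - (γ 0 0 - γ 1 1) * (G * p) * (G * q)
          - γ 0 1 * (G * q) * (G * q) := by ring
    rw [this, e1, e2, hx]
    linear_combination (-γ 1 0) * hxx
  rcases mul_eq_zero.mp key with h | h
  · exact absurd (mul_self_eq_zero.mp h) hG0
  · exact h

/-- A trace `±2` element acts on `ℍ` as a conjugate of a translation. -/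
theorem s21p_exists_conj_T (γ : SL(2, ℤ))
    (htr : (γ : Matrix (Fin 2) (Fin 2) ℤ).trace ^ 2 = 4) :
    ∃ (δ : SL(2, ℤ)) (n : ℤ), ∀ w : ℍ, γ • (δ • w) = δ • (ModularGroup.T ^ n • w) := by
  obtain ⟨g, hg⟩ := s21p_exists_conj_upper γ htr
  obtain ⟨n, hn⟩ := ModularGroup.exists_eq_T_zpow_of_c_eq_zero hg
  refine ⟨g⁻¹, n, fun w => ?_⟩
  rw [← hn w, ← mul_smul, ← mul_smul]
  congr 1
  group

theorem s21p_tendsto_T_zpow (n : ℤ) :
    Tendsto (fun w : ℍ => ModularGroup.T ^ n • w) atImInfty atImInfty := by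
  rw [atImInfty, tendsto_comap_iff]
  have : (UpperHalfPlane.im ∘ fun w : ℍ => ModularGroup.T ^ n • w) = UpperHalfPlane.im := by
    funext w
    exact ModularGroup.im_T_zpow_smul w n
  rw [this]
  exact tendsto_comap

/-- [S21-PAR] periods of parabolic elements (and of `-1`) vanish. -/
theorem s21_periodMap_mem (N : ℕ) [NeZero N] (f : CuspForm (Gamma0 N) 2) :
    periodMap N f ∈ parabolicHoms ℂ (Gamma0 N) ℂ := by
  intro γ hγ
  obtain ⟨δ, n, hδ⟩ := s21p_exists_conj_T (γ : SL(2, ℤ)) hγ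
  have hF := s21p_hasEquivariantPrimitive N f
  obtain ⟨L, hL⟩ := hF.2.2.2 δ
  set c := periodMap N f (Additive.ofMul γ) with hc
  have h1 : ∀ w : ℍ, cuspPrim ⇑f (δ • (ModularGroup.T ^ n • w)) - cuspPrim ⇑f (δ • w) = c := by
    intro w
    rw [hc, s21p_periodMap_eq N f γ (δ • w), hδ w]
  have h2 : Tendsto (fun w : ℍ => cuspPrim ⇑f (δ • (ModularGroup.T ^ n • w))
      - cuspPrim ⇑f (δ • w)) atImInfty (𝓝 (L - L)) :=
    (hL.comp (s21p_tendsto_T_zpow n)).sub hL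
  rw [sub_self] at h2
  have h3 : Tendsto (fun _ : ℍ => c) atImInfty (𝓝 0) := h2.congr h1
  have hne : (atImInfty : Filter ℍ).NeBot := inferInstance
  exact tendsto_nhds_unique tendsto_const_nhds h3

end Fermat.Agent.S21
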