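import Fermat.Agent.S22.Period
import Fermat.Prelude.Def_ModularCurve_PeriodHomPair

/-!
# S21, packages PRIM / PRIM' / LIN: equivariant primitives of weight-2 cusp forms

* `s21_exists_primitive` : `cuspPrim f` is an equivariant primitive;
* `s21_periodMap_apply` : the period map is computed by any equivariant primitive;
* `s21_existsPeriodMapLinear` : the period map is linear.
-/

set_option autoImplicit false

noncomputable section

namespace Fermat.Agent.S21

open Fermat.Agent.S22 ModularCurve ModularCurve.Period UpperHalfPlane CongruenceSubgroup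
open Filter Topology
open scoped MatrixGroups ModularForm Manifold

/-- Chain rule in weight 2: `F ∘ δ` is a primitive of `f ∣[2] δ`. -/
theorem s21p_isPrim_comp {F f : ℍ → ℂ} (hF : IsPrim F f) (δ : SL(2, ℤ)) :
    IsPrim (fun τ => F (δ • τ)) (f ∣[(2 : ℤ)] δ) := by
  have h := hF.comp_smul δ
  have e : (fun τ => f (δ • τ) * denom δ τ ^ (-2 : ℤ)) = f ∣[(2 : ℤ)] δ := by
    funext τ
    rw [ModularForm.SL_slash_apply]
  rwa [e] at h

/-- The primitive `cuspPrim f` of a cusp form. -/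
theorem s21p_isPrim (N : ℕ) [NeZero N] (f : CuspForm (Gamma0 N) 2) :
    IsPrim (cuspPrim ⇑f) ⇑f :=
  isPrim_cuspPrim (isCuspidal_cuspForm N 2 f)

theorem s21p_tendsto_zero (N : ℕ) [NeZero N] (f : CuspForm (Gamma0 N) 2) :
    Tendsto (cuspPrim ⇑f) atImInfty (𝓝 0) :=
  (isCuspidal_cuspPrim (isCuspidal_cuspForm N 2 f)).zero

/-- For every `δ ∈ SL(2, ℤ)`, `F ∘ δ` is a cuspidal function plus a constant. -/
theorem s21p_comp_eq (N : ℕ) [NeZero N] (f : CuspForm (Gamma0 N) 2) (δ : SL(2, ℤ)) :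
    ∃ c : ℂ, ∀ τ, cuspPrim ⇑f (δ • τ) = cuspPrim (⇑f ∣[(2 : ℤ)] δ) τ + c := by
  obtain ⟨h, hh⟩ := exists_isCuspidal_slash N 2
  exact (s21p_isPrim_comp (s21p_isPrim N f) δ).eq_add_const (isPrim_cuspPrim (hh f δ))

theorem s21p_hasEquivariantPrimitive (N : ℕ) [NeZero N] (f : CuspForm (Gamma0 N) 2) :
    HasEquivariantPrimitive N f (cuspPrim ⇑f) := by
  refine ⟨s21p_isPrim N f, s21p_tendsto_zero N f, ?_, ?_⟩
  · intro γ
    have h1 := s21p_isPrim_comp (s21p_isPrim N f) (γ : SL(2, ℤ))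
    rw [per_slash_eq N 2 γ.2 f] at h1
    obtain ⟨c, hc⟩ := h1.eq_add_const (s21p_isPrim N f)
    exact ⟨c, fun z => by rw [hc z]; ring⟩
  · intro δ
    obtain ⟨h, hh⟩ := exists_isCuspidal_slash N 2
    obtain ⟨c, hc⟩ := s21p_comp_eq N f δ
    refine ⟨c, ?_⟩
    have h3 : Tendsto (cuspPrim (⇑f ∣[(2 : ℤ)] δ)) atImInfty (𝓝 0) :=
      (isCuspidal_cuspPrim (hh f δ)).zero
    have h4 := h3.add_const c
    rw [zero_add] at h4
    exact h4.congr (fun w => (hc w).symm)

/-- [S21-PRIM] every weight-2 cusp form has an equivariant primitive. -/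
theorem s21_exists_primitive (N : ℕ) [NeZero N] (f : CuspForm (Gamma0 N) 2) :
    ∃ F : UpperHalfPlane → ℂ, HasEquivariantPrimitive N f F :=
  ⟨_, s21p_hasEquivariantPrimitive N f⟩

/-- [S21-PRIM'] the primitive is unique, hence `periodMap` is given by any primitive. -/
theorem s21_periodMap_apply (N : ℕ) [NeZero N] (f : CuspForm (Gamma0 N) 2)
    {F : UpperHalfPlane → ℂ} (hF : HasEquivariantPrimitive N f F) (γ : Gamma0 N)
    (z : UpperHalfPlane) :
    periodMap N f (Additive.ofMul γ) = F ((γ : SL(2, ℤ)) • z) - F z := by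
  obtain ⟨F₀, h₀, hp⟩ := periodMap_def N f hF
  rw [hp, IsEquivariantPrimitive.periodHom_apply, ← h₀.2.2.1.sub_eq_period γ z]
  have h1 : IsPrim F₀ ⇑f := h₀.1
  have h2 : IsPrim F ⇑f := hF.1
  obtain ⟨c, hc⟩ := h1.eq_add_const h2
  rw [hc, hc]
  ring

/-- The period map in terms of `cuspPrim`. -/
theorem s21p_periodMap_eq (N : ℕ) [NeZero N] (f : CuspForm (Gamma0 N) 2) (γ : Gamma0 N)
    (z : ℍ) :
    periodMap N f (Additive.ofMul γ) = cuspPrim ⇑f ((γ : SL(2, ℤ)) • z) - cuspPrim ⇑f z :=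
  s21_periodMap_apply N f (s21p_hasEquivariantPrimitive N f) γ z

theorem s21p_periodMap_add (N : ℕ) [NeZero N] (f g : CuspForm (Gamma0 N) 2) :
    periodMap N (f + g) = periodMap N f + periodMap N g := by
  refine AddMonoidHom.ext fun γ => ?_
  obtain ⟨γ, rfl⟩ := Additive.ofMul.surjective γ
  rw [AddMonoidHom.add_apply, s21p_periodMap_eq N (f + g) γ I, s21p_periodMap_eq N f γ I,
    s21p_periodMap_eq N g γ I]
  have e : (⇑(f + g) : ℍ → ℂ) = ⇑f + ⇑g := rfl
  rw [e, cuspPrim_add (isCuspidal_cuspForm N 2 f) (isCuspidal_cuspForm N 2 g)]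
  simp only [Pi.add_apply]
  ring

theorem s21p_periodMap_smul (N : ℕ) [NeZero N] (c : ℂ) (f : CuspForm (Gamma0 N) 2) :
    periodMap N (c • f) = c • periodMap N f := by
  refine AddMonoidHom.ext fun γ => ?_
  obtain ⟨γ, rfl⟩ := Additive.ofMul.surjective γ
  rw [AddMonoidHom.smul_apply, s21p_periodMap_eq N (c • f) γ I, s21p_periodMap_eq N f γ I]
  have e : (⇑(c • f) : ℍ → ℂ) = c • ⇑f := rfl
  rw [e, cuspPrim_smul (isCuspidal_cuspForm N 2 f)]
  simp only [Pi.smul_apply, smul_eq_mul]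
  ring

/-- The period map, as a linear map. -/
def s21p_periodLin (N : ℕ) [NeZero N] :
    CuspForm (Gamma0 N) 2 →ₗ[ℂ] (Additive (Gamma0 N) →+ ℂ) where
  toFun := periodMap N
  map_add' := s21p_periodMap_add N
  map_smul' := s21p_periodMap_smul N

@[simp] theorem s21p_periodLin_apply (N : ℕ) [NeZero N] (f : CuspForm (Gamma0 N) 2) :
    s21p_periodLin N f = periodMap N f := rfl

/-- [S21-LIN] the period map is linear. -/
theorem s21_existsPeriodMapLinear (N : ℕ) [NeZero N] : ExistsPeriodMapLinear N :=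
  ⟨s21p_periodLin N, fun _ => rfl⟩

end Fermat.Agent.S21
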