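import Fermat.Agent.S21.DimCore
import Fermat.Agent.S24.MGModel
import Fermat.Prelude.Def_ModularCurve_PeriodHomPair

/-!
# S21 — [S21-DIM]: `dim Hom_par(Γ₀(N), ℂ) ≤ 2 g` (prefix `dim_`)

The Schreier (Shapiro) cocycle `c_φ(g)(q) = φ(r(q)⁻¹ g r(g⁻¹ q))` of a homomorphism
`φ : Γ₀(N) → ℂ`, with values in the functions on `SL(2,ℤ) ⧸ Γ₀(N)`, and the abstract core
`dim_core`.
-/

set_option autoImplicit false

namespace Fermat.Agent.S21

open MulAction Subgroup Module CongruenceSubgroup Matrix ModularGroup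
open Fermat.Agent.S24 ModularCurve.Period
open scoped MatrixGroups

variable (N : ℕ)

/-- Extension by zero of a homomorphism `Γ₀(N) → ℂ` to `SL(2,ℤ)`. -/
noncomputable def dim_ext (φ : Additive (Gamma0 N) →+ ℂ) (g : SL(2, ℤ)) : ℂ :=
  open scoped Classical in
  if h : g ∈ Gamma0 N then φ (Additive.ofMul ⟨g, h⟩) else 0

theorem dim_ext_of_mem (φ : Additive (Gamma0 N) →+ ℂ) {g : SL(2, ℤ)} (h : g ∈ Gamma0 N) :
    dim_ext N φ g = φ (Additive.ofMul ⟨g, h⟩) := by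
  rw [dim_ext, dif_pos h]

theorem dim_ext_mul (φ : Additive (Gamma0 N) →+ ℂ) {g h : SL(2, ℤ)} (hg : g ∈ Gamma0 N)
    (hh : h ∈ Gamma0 N) : dim_ext N φ (g * h) = dim_ext N φ g + dim_ext N φ h := by
  rw [dim_ext_of_mem N φ hg, dim_ext_of_mem N φ hh, dim_ext_of_mem N φ (mul_mem hg hh),
    ← map_add]
  rfl

theorem dim_ext_one (φ : Additive (Gamma0 N) →+ ℂ) : dim_ext N φ 1 = 0 := by
  rw [dim_ext_of_mem N φ (one_mem _)]
  exact map_zero φ

theorem dim_ext_inv (φ : Additive (Gamma0 N) →+ ℂ) {g : SL(2, ℤ)} (hg : g ∈ Gamma0 N) :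
    dim_ext N φ g⁻¹ = - dim_ext N φ g := by
  have h := dim_ext_mul N φ hg (inv_mem hg)
  rw [mul_inv_cancel, dim_ext_one] at h
  exact eq_neg_of_add_eq_zero_right h.symm

theorem dim_ext_add (φ ψ : Additive (Gamma0 N) →+ ℂ) (g : SL(2, ℤ)) :
    dim_ext N (φ + ψ) g = dim_ext N φ g + dim_ext N ψ g := by
  by_cases h : g ∈ Gamma0 N
  · rw [dim_ext_of_mem N _ h, dim_ext_of_mem N _ h, dim_ext_of_mem N _ h]
    rfl
  · simp [dim_ext, h]

theorem dim_ext_smul (a : ℂ) (φ : Additive (Gamma0 N) →+ ℂ) (g : SL(2, ℤ)) :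
    dim_ext N (a • φ) g = a * dim_ext N φ g := by
  by_cases h : g ∈ Gamma0 N
  · rw [dim_ext_of_mem N _ h, dim_ext_of_mem N _ h]
    rfl
  · simp [dim_ext, h]

/-- The chosen representative of a coset. -/
noncomputable def dim_rep (q : s24Q N) : SL(2, ℤ) := Quotient.out q

theorem dim_rep_mk (q : s24Q N) : ((dim_rep N q : SL(2, ℤ)) : s24Q N) = q :=
  QuotientGroup.out_eq' q

/-- The Schreier element `r(q)⁻¹ g r(g⁻¹ q)`. -/
noncomputable def dim_sch (g : SL(2, ℤ)) (q : s24Q N) : SL(2, ℤ) :=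
  (dim_rep N q)⁻¹ * g * dim_rep N (g⁻¹ • q)

theorem dim_sch_mem (g : SL(2, ℤ)) (q : s24Q N) : dim_sch N g q ∈ Gamma0 N := by
  rw [dim_sch, mul_assoc, ← QuotientGroup.eq]
  rw [dim_rep_mk]
  change q = g • ((dim_rep N (g⁻¹ • q) : SL(2, ℤ)) : s24Q N)
  rw [dim_rep_mk, smul_inv_smul]

theorem dim_sch_mul (g h : SL(2, ℤ)) (q : s24Q N) :
    dim_sch N (g * h) q = dim_sch N g q * dim_sch N h (g⁻¹ • q) := by
  rw [dim_sch, dim_sch, dim_sch, _root_.mul_inv_rev, mul_smul]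
  group

/-- The Schreier cocycle, as a function. -/
noncomputable def dim_cocFun (φ : Additive (Gamma0 N) →+ ℂ) (g : SL(2, ℤ)) (q : s24Q N) : ℂ :=
  dim_ext N φ (dim_sch N g q)

theorem dim_cocFun_mul (φ : Additive (Gamma0 N) →+ ℂ) (g h : SL(2, ℤ)) :
    dim_cocFun N φ (g * h) = dim_cocFun N φ g + dim_op ℂ g (dim_cocFun N φ h) := by
  funext q
  simp only [dim_cocFun, Pi.add_apply, dim_op_apply]
  rw [dim_sch_mul, dim_ext_mul N φ (dim_sch_mem N g q) (dim_sch_mem N h _)]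

/-- The trace of a conjugate. -/
theorem dim_trace_conj (r g : SL(2, ℤ)) :
    ((r⁻¹ * g * r : SL(2, ℤ)) : Matrix (Fin 2) (Fin 2) ℤ).trace
      = (g : Matrix (Fin 2) (Fin 2) ℤ).trace := by
  rw [Matrix.SpecialLinearGroup.coe_mul, Matrix.SpecialLinearGroup.coe_mul,
    Matrix.trace_mul_cycle, ← Matrix.SpecialLinearGroup.coe_mul, mul_inv_cancel,
    Matrix.SpecialLinearGroup.coe_one, Matrix.one_mul]

/-- The cocycle of a parabolic homomorphism vanishes at the elements of trace `±2` acting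
trivially on the cosets. -/
theorem dim_cocFun_eq_zero (φ : Additive (Gamma0 N) →+ ℂ) (hφ : IsParabolicHom (Gamma0 N) φ)
    (g : SL(2, ℤ)) (hg : ∀ q : s24Q N, g • q = q)
    (htr : (g : Matrix (Fin 2) (Fin 2) ℤ).trace ^ 2 = 4) : dim_cocFun N φ g = 0 := by
  funext q
  have hq : g⁻¹ • q = q := by rw [inv_smul_eq_iff, hg]
  have hmem := dim_sch_mem N g q
  simp only [dim_cocFun, Pi.zero_apply]
  rw [dim_ext_of_mem N φ hmem]
  apply hφ
  change ((dim_sch N g q : SL(2, ℤ)) : Matrix (Fin 2) (Fin 2) ℤ).trace ^ 2 = 4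
  rw [dim_sch, hq, dim_trace_conj, htr]

/-- The value of the cocycle at an element of `Γ₀(N)` and the base coset. -/
theorem dim_cocFun_base (φ : Additive (Gamma0 N) →+ ℂ) (γ : Gamma0 N) :
    dim_cocFun N φ (γ : SL(2, ℤ)) ((1 : SL(2, ℤ)) : s24Q N) = φ (Additive.ofMul γ) := by
  have hq : (γ : SL(2, ℤ))⁻¹ • (((1 : SL(2, ℤ)) : s24Q N)) = ((1 : SL(2, ℤ)) : s24Q N) := by
    change (((γ : SL(2, ℤ))⁻¹ * 1 : SL(2, ℤ)) : s24Q N) = _
    rw [QuotientGroup.eq]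
    simp
  have hr : dim_rep N ((1 : SL(2, ℤ)) : s24Q N) ∈ Gamma0 N := by
    have h := dim_rep_mk N ((1 : SL(2, ℤ)) : s24Q N)
    rw [eq_comm, QuotientGroup.eq] at h
    simpa using h
  simp only [dim_cocFun, dim_sch]
  rw [hq, dim_ext_mul N φ (mul_mem (inv_mem hr) γ.2) hr, dim_ext_mul N φ (inv_mem hr) γ.2,
    dim_ext_inv N φ hr, dim_ext_of_mem N φ γ.2]
  simp

/-- The Schreier cocycle, as a linear map on the parabolic homomorphisms. -/
noncomputable def dim_coc :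
    parabolicHoms ℂ (Gamma0 N) ℂ →ₗ[ℂ] (SL(2, ℤ) → (s24Q N → ℂ)) where
  toFun φ := dim_cocFun N φ.1
  map_add' φ ψ := by
    funext g q
    exact dim_ext_add N φ.1 ψ.1 _
  map_smul' a φ := by
    funext g q
    exact dim_ext_smul N a φ.1 _

theorem dim_coc_apply (φ : parabolicHoms ℂ (Gamma0 N) ℂ) : dim_coc N φ = dim_cocFun N φ.1 := rfl

/-- [S21-DIM] the upper bound `dim Hom_par(Γ₀(N), ℂ) ≤ 2 g`. -/
theorem s21_dim [NeZero N] :
    Module.Finite ℂ (parabolicHoms ℂ (Gamma0 N) ℂ) ∧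
    (Module.finrank ℂ (parabolicHoms ℂ (Gamma0 N) ℂ) : ℤ) +
        Nat.card (Quotient (s24Orb N (ModularGroup.S * ModularGroup.T)))
        + Nat.card (Quotient (s24Orb N ModularGroup.S))
        + Nat.card (Quotient (s24Orb N ModularGroup.T))
      ≤ (Nat.card (s24Q N) : ℤ) + 2 := by
  have hneg : ((-1 : SL(2, ℤ)) : Matrix (Fin 2) (Fin 2) ℤ).trace ^ 2 = 4 := by
    simp
  have hSS : (S * S : SL(2, ℤ)) = -1 := by decide
  have hUUU : ((S * T) ^ 3 : SL(2, ℤ)) = -1 := by decide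
  have hTtr : ((T ^ N : SL(2, ℤ)) : Matrix (Fin 2) (Fin 2) ℤ).trace ^ 2 = 4 := by
    have := ModularGroup.coe_T_zpow (N : ℤ)
    rw [zpow_natCast] at this
    rw [this]
    simp [Matrix.trace_fin_two]
  have key := dim_core (G := SL(2, ℤ)) (Q := s24Q N) ℂ S T
    SpecialLinearGroup.SL2Z_generators
    (fun q => by rw [hSS]; exact mgm_neg_one_smul N q)
    (fun q => mgm_ST_cube_smul N q) N (Nat.pos_of_ne_zero (NeZero.ne N))
    (fun q => mgm_T_pow_smul N q) (dim_coc N)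
    (fun φ g h => dim_cocFun_mul N φ.1 g h)
    (fun φ => by
      rw [hSS]
      exact dim_cocFun_eq_zero N φ.1 φ.2 _ (mgm_neg_one_smul N) hneg)
    (fun φ => by
      rw [hUUU]
      exact dim_cocFun_eq_zero N φ.1 φ.2 _ (mgm_neg_one_smul N) hneg)
    (fun φ => dim_cocFun_eq_zero N φ.1 φ.2 _ (mgm_T_pow_smul N) hTtr)
    (fun φ w hw => by
      apply Subtype.ext
      apply AddMonoidHom.ext
      intro γ
      have h1 := dim_cocFun_base N φ.1 (Additive.toMul γ)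
      have h2 := congrFun (hw ((Additive.toMul γ : Gamma0 N) : SL(2, ℤ)))
        ((1 : SL(2, ℤ)) : s24Q N)
      rw [dim_coc_apply, h1] at h2
      have hq : ((Additive.toMul γ : Gamma0 N) : SL(2, ℤ))⁻¹ • (((1 : SL(2, ℤ)) : s24Q N))
          = ((1 : SL(2, ℤ)) : s24Q N) := by
        change ((((Additive.toMul γ : Gamma0 N) : SL(2, ℤ))⁻¹ * 1 : SL(2, ℤ)) : s24Q N) = _
        rw [QuotientGroup.eq]
        simp
      simp only [Pi.sub_apply, dim_op_apply, hq, sub_self] at h2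
      simpa using h2)
  refine ⟨key.1, ?_⟩
  have h := key.2
  rw [← Nat.card_eq_fintype_card] at h
  exact_mod_cast h

end Fermat.Agent.S21
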