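import Fermat.Agent.S21.DimLin

/-!
# S21 — [S21-DIM], the abstract core (prefix `dim_`)

`G` acts transitively on the finite set `Q`, `S`, `T` generate `G`, and `S²`, `(S T)³`, `Tⁿ` act
trivially on `Q`.  A space `P` with a linear family of cocycles `c φ : G → (Q → k)` vanishing at
`S²`, `(S T)³`, `Tⁿ`, such that `c φ` is a coboundary only for `φ = 0`, has dimension at most
`|Q| + 2 - #orbits(S T) - #orbits(S) - #orbits(T)`.
-/

set_option autoImplicit false

namespace Fermat.Agent.S21

open MulAction Subgroup Module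

section cocycle

variable {G : Type*} [Group G] {Q : Type*} [MulAction G Q] (k : Type*) [Field k]

theorem dim_cocycle_one (c : G → (Q → k)) (hc : ∀ g h, c (g * h) = c g + dim_op k g (c h)) :
    c 1 = 0 := by
  have h := hc 1 1
  rw [mul_one, dim_op_one] at h
  exact left_eq_add.mp h

theorem dim_cocycle_pow (c : G → (Q → k)) (hc : ∀ g h, c (g * h) = c g + dim_op k g (c h))
    (g : G) (m : ℕ) : c (g ^ m) = dim_norm k g m (c g) := by
  induction m with
  | zero => rw [pow_zero, dim_cocycle_one k c hc, dim_norm_apply]; simp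
  | succ m ih => rw [pow_succ, hc, ih, dim_norm_succ]

theorem dim_cocycle_eq_zero (S U : G) (hgen : closure ({S, U} : Set G) = ⊤)
    (c : G → (Q → k)) (hc : ∀ g h, c (g * h) = c g + dim_op k g (c h))
    (hS : c S = 0) (hU : c U = 0) (g : G) : c g = 0 := by
  have hg : g ∈ closure ({S, U} : Set G) := by rw [hgen]; trivial
  induction hg using Subgroup.closure_induction with
  | mem x hx =>
    rcases hx with rfl | hx
    · exact hS
    · rw [Set.mem_singleton_iff] at hx
      subst hx
      exact hU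
  | one => exact dim_cocycle_one k c hc
  | mul x y _ _ hx hy => rw [hc, hx, hy, map_zero, add_zero]
  | inv x _ hx =>
    have h := hc x x⁻¹
    rw [mul_inv_cancel, dim_cocycle_one k c hc, hx, zero_add] at h
    apply dim_op_injective k x
    rw [← h, map_zero]

/-- Subtracting a coboundary from a cocycle. -/
theorem dim_cocycle_sub (c : G → (Q → k)) (hc : ∀ g h, c (g * h) = c g + dim_op k g (c h))
    (w : Q → k) (g h : G) :
    c (g * h) - (dim_op k (g * h) w - w)
      = (c g - (dim_op k g w - w)) + dim_op k g (c h - (dim_op k h w - w)) := by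
  rw [hc, dim_op_mul, map_sub, map_sub]
  abel

end cocycle

section core

variable {G : Type*} [Group G] {Q : Type*} [MulAction G Q] [Fintype Q]
  [MulAction.IsPretransitive G Q] (k : Type*) [Field k] [CharZero k]

omit [CharZero k] in
/-- rank–nullity for the restriction of a linear map to a submodule, as an inequality. -/
theorem dim_finrank_le_map_add {V W : Type*} [AddCommGroup V] [Module k V] [AddCommGroup W]
    [Module k W] [FiniteDimensional k V] (f : V →ₗ[k] W) (p : Submodule k V) :
    finrank k p ≤ finrank k (p.map f) + finrank k (LinearMap.ker f ⊓ p : Submodule k V) := by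
  have h1 := LinearMap.finrank_range_add_finrank_ker (f.domRestrict p)
  have h2 : LinearMap.range (f.domRestrict p) = p.map f := LinearMap.range_domRestrict p f
  have h3 : finrank k (LinearMap.ker (f.domRestrict p))
      ≤ finrank k (LinearMap.ker f ⊓ p : Submodule k V) := by
    have hinj : Function.Injective
        ((p.subtype).domRestrict (LinearMap.ker (f.domRestrict p))) := by
      intro a b hab
      exact Subtype.ext (Subtype.ext (by simpa using hab))
    have hle : LinearMap.range ((p.subtype).domRestrict (LinearMap.ker (f.domRestrict p)))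
        ≤ LinearMap.ker f ⊓ p := by
      rintro _ ⟨⟨⟨v, hv⟩, hker⟩, rfl⟩
      refine ⟨?_, hv⟩
      rw [LinearMap.mem_ker] at hker
      exact LinearMap.mem_ker.mpr hker
    calc finrank k (LinearMap.ker (f.domRestrict p))
        = finrank k (LinearMap.range
            ((p.subtype).domRestrict (LinearMap.ker (f.domRestrict p)))) :=
          (LinearMap.finrank_range_of_inj hinj).symm
      _ ≤ _ := Submodule.finrank_mono hle
  rw [h2] at h1
  omega

/-- **The abstract core of [S21-DIM].** -/
theorem dim_core (S T : G) (hgen : closure ({S, T} : Set G) = ⊤)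
    (hS : ∀ q : Q, (S * S) • q = q) (hU : ∀ q : Q, (S * T) ^ 3 • q = q)
    (n : ℕ) (hn : 0 < n) (hT : ∀ q : Q, T ^ n • q = q)
    {P : Type*} [AddCommGroup P] [Module k P]
    (c : P →ₗ[k] (G → (Q → k)))
    (hc : ∀ φ g h, c φ (g * h) = c φ g + dim_op k g (c φ h))
    (hcS : ∀ φ, c φ (S * S) = 0)
    (hcU : ∀ φ, c φ ((S * T) ^ 3) = 0)
    (hcT : ∀ φ, c φ (T ^ n) = 0)
    (hinj : ∀ φ (w : Q → k), (∀ g, c φ g = dim_op k g w - w) → φ = 0) :
    Module.Finite k P ∧
    finrank k P + Nat.card (Quotient (MulAction.orbitRel (zpowers (S * T)) Q))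
        + Nat.card (Quotient (MulAction.orbitRel (zpowers S) Q))
        + Nat.card (Quotient (MulAction.orbitRel (zpowers T) Q))
      ≤ Fintype.card Q + 2 := by
  classical
  set U : G := S * T with hUdef
  -- `S` and `U` generate
  have hgen' : closure ({S, U} : Set G) = ⊤ := by
    rw [eq_top_iff, ← hgen, closure_le]
    rintro x (rfl | hx)
    · exact subset_closure (Set.mem_insert _ _)
    · rw [Set.mem_singleton_iff] at hx
      subst hx
      have h1 : S ∈ closure ({S, U} : Set G) := subset_closure (Set.mem_insert _ _)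
      have h2 : U ∈ closure ({S, U} : Set G) :=
        subset_closure (Set.mem_insert_of_mem _ rfl)
      have : x = S⁻¹ * U := by rw [hUdef, inv_mul_cancel_left]
      rw [this]
      exact mul_mem (inv_mem h1) h2
  -- the linear maps
  let evS : P →ₗ[k] (Q → k) := (LinearMap.proj S).comp c
  let evU : P →ₗ[k] (Q → k) := (LinearMap.proj U).comp c
  let Φ : P →ₗ[k] (Q → k) :=
    evU + (2⁻¹ : k) • ((dim_op k U - LinearMap.id).comp evS)
  have hΦ : ∀ φ, Φ φ = c φ U - (dim_op k U (-(2⁻¹ : k) • c φ S) - (-(2⁻¹ : k) • c φ S)) := by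
    intro φ
    simp only [Φ, evS, evU, LinearMap.add_apply, LinearMap.smul_apply, LinearMap.comp_apply,
      LinearMap.proj_apply, LinearMap.sub_apply, LinearMap.id_apply, map_smul, neg_smul,
      map_neg]
    rw [smul_sub]
    abel
  -- basic facts on the cocycles
  have hSa : ∀ φ, dim_op k S (c φ S) = - c φ S := by
    intro φ
    have h := hc φ S S
    rw [hcS] at h
    exact (eq_neg_of_add_eq_zero_right h.symm)
  have h2 : (2 : k) ≠ 0 := two_ne_zero
  have hc'S : ∀ φ, c φ S - (dim_op k S (-(2⁻¹ : k) • c φ S) - (-(2⁻¹ : k) • c φ S)) = 0 := by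
    intro φ
    rw [map_smul, hSa, neg_smul, neg_smul, smul_neg, neg_neg, sub_neg_eq_add, ← add_smul,
      ← two_mul, mul_inv_cancel₀ h2, one_smul, sub_self]
  -- the subspaces
  let X₁ : Submodule k (Q → k) := LinearMap.ker (dim_norm (Q := Q) k U 3)
  let K₂ : Submodule k (Q → k) := LinearMap.ker (dim_norm (Q := Q) k T n)
  let X₂ : Submodule k (Q → k) := K₂.map (dim_op k S)
  let Y : Submodule k (Q → k) := (dim_inv k S).map (dim_op (Q := Q) k U - LinearMap.id)
  have hsubX₁ : ∀ v : Q → k, dim_op k U v - v ∈ X₁ := fun v =>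
    LinearMap.mem_ker.mpr (dim_norm_sub_of_trivial k U 3 hU v)
  have hsubK₂ : ∀ v : Q → k, dim_op k T v - v ∈ K₂ := fun v =>
    LinearMap.mem_ker.mpr (dim_norm_sub_of_trivial k T n hT v)
  -- the image of `Φ` lies in `X₁ ⊓ X₂`
  have hΦX : LinearMap.range Φ ≤ X₁ ⊓ X₂ := by
    rintro _ ⟨φ, rfl⟩
    constructor
    · rw [hΦ]
      refine sub_mem ?_ (hsubX₁ _)
      rw [LinearMap.mem_ker, ← dim_cocycle_pow k (c φ) (hc φ), hcU]
    · have hUT := dim_cocycle_sub k (c φ) (hc φ) (-(2⁻¹ : k) • c φ S) S T
      rw [hc'S, zero_add] at hUT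
      rw [hΦ, hUdef, hUT]
      refine Submodule.mem_map_of_mem (sub_mem ?_ (hsubK₂ _))
      rw [LinearMap.mem_ker, ← dim_cocycle_pow k (c φ) (hc φ), hcT]
  -- `Y ≤ X₁ ⊓ X₂`
  have hYX : Y ≤ X₁ ⊓ X₂ := by
    rintro _ ⟨v, hv, rfl⟩
    rw [LinearMap.sub_apply, LinearMap.id_apply]
    refine ⟨hsubX₁ v, ?_⟩
    have hv' : dim_op k S v = v := (dim_mem_inv_iff k S v).mp hv
    have : dim_op k U v - v = dim_op k S (dim_op k T v - v) := by
      rw [map_sub, hv', hUdef, dim_op_mul]
    rw [this]
    exact Submodule.mem_map_of_mem (hsubK₂ v)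
  -- a cocycle with `Φ φ ∈ Y` is a coboundary
  have hker : ∀ φ, Φ φ ∈ Y → φ = 0 := by
    rintro φ ⟨v, hv, hvφ⟩
    rw [LinearMap.sub_apply, LinearMap.id_apply] at hvφ
    have hv' : dim_op k S v = v := (dim_mem_inv_iff k S v).mp hv
    apply hinj φ (-(2⁻¹ : k) • c φ S + v)
    intro g
    have key := dim_cocycle_eq_zero k S U hgen'
      (fun g => c φ g - (dim_op k g (-(2⁻¹ : k) • c φ S + v) - (-(2⁻¹ : k) • c φ S + v)))
      (fun g h => dim_cocycle_sub k (c φ) (hc φ) _ g h) ?_ ?_ g
    · exact sub_eq_zero.mp key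
    · have := hc'S φ
      rw [map_add, hv']
      rw [← this]
      abel
    · have h3 : dim_op k U v - v
          = c φ U - (dim_op k U (-(2⁻¹ : k) • c φ S) - (-(2⁻¹ : k) • c φ S)) :=
        hvφ.trans (hΦ φ)
      have h4 : c φ U - (dim_op k U (-(2⁻¹ : k) • c φ S + v) - (-(2⁻¹ : k) • c φ S + v))
          = (c φ U - (dim_op k U (-(2⁻¹ : k) • c φ S) - (-(2⁻¹ : k) • c φ S)))
            - (dim_op k U v - v) := by
        rw [map_add]
        abel
      rw [h4, ← h3, sub_self]
  have hΦinj : Function.Injective Φ := by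
    rw [← LinearMap.ker_eq_bot, LinearMap.ker_eq_bot']
    intro φ hφ
    apply hker φ
    rw [hφ]
    exact zero_mem _
  have hdisj : LinearMap.range Φ ⊓ Y = ⊥ := by
    rw [eq_bot_iff]
    rintro _ ⟨⟨φ, rfl⟩, hY⟩
    rw [hker φ hY, map_zero]
    exact zero_mem _
  refine ⟨Module.Finite.of_injective Φ hΦinj, ?_⟩
  -- dimension count
  have e1 : finrank k P = finrank k (LinearMap.range Φ) :=
    (LinearMap.finrank_range_of_inj hΦinj).symm
  have e2 := Submodule.finrank_sup_add_finrank_inf_eq (LinearMap.range Φ) Y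
  rw [hdisj, finrank_bot, add_zero] at e2
  have e3 : finrank k (LinearMap.range Φ ⊔ Y : Submodule k (Q → k))
      ≤ finrank k (X₁ ⊓ X₂ : Submodule k (Q → k)) :=
    Submodule.finrank_mono (sup_le hΦX hYX)
  have e4 := Submodule.finrank_sup_add_finrank_inf_eq X₁ X₂
  have e5 := dim_finrank_ker_norm (Q := Q) k U 3 (by norm_num)
  have e6 := dim_finrank_ker_norm (Q := Q) k T n hn
  have e7 : finrank k X₂ ≤ finrank k K₂ := Submodule.finrank_map_le _ _
  have e8 : Fintype.card Q ≤ finrank k (X₁ ⊔ X₂ : Submodule k (Q → k)) + 1 := by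
    refine le_trans (dim_finrank_ker_sum (Q := Q) k) ?_
    refine Nat.add_le_add_right (Submodule.finrank_mono ?_) 1
    apply dim_ker_sum_le k S U hgen'
    · intro v
      have : dim_op k S v - v = (dim_op k U v - v) - dim_op k S (dim_op k T v - v) := by
        rw [map_sub, hUdef, dim_op_mul]
        abel
      rw [this]
      exact sub_mem (Submodule.mem_sup_left (hsubX₁ v))
        (Submodule.mem_sup_right (Submodule.mem_map_of_mem (hsubK₂ v)))
    · intro v
      exact Submodule.mem_sup_left (hsubX₁ v)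
  have e9 : Nat.card (Quotient (MulAction.orbitRel (zpowers S) Q)) ≤ finrank k Y + 1 := by
    refine le_trans (dim_card_orbits_le (Q := Q) k S) ?_
    refine le_trans (dim_finrank_le_map_add k (dim_op (Q := Q) k U - LinearMap.id)
      (dim_inv k S)) ?_
    refine Nat.add_le_add_left ?_ _
    have : (LinearMap.ker (dim_op (Q := Q) k U - LinearMap.id) ⊓ dim_inv k S)
        = dim_inv k S ⊓ dim_inv k U := inf_comm _ _
    rw [this]
    exact dim_finrank_inv_inf_le k S U hgen'
  change finrank k (LinearMap.ker (dim_norm (Q := Q) k U 3)) + _ ≤ _ at e5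
  change finrank k (LinearMap.ker (dim_norm (Q := Q) k T n)) + _ ≤ _ at e6
  change finrank k X₁ + _ ≤ _ at e5
  change finrank k K₂ + _ ≤ _ at e6
  omega

end core

end Fermat.Agent.S21
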