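import Mathlib

/-!
# S21 — [S21-DIM], linear algebra on a permutation module (prefix `dim_`)

`G` a group acting on a finite set `Q`, `V = Q → k`, `(g · v) q = v (g⁻¹ • q)`.
-/

set_option autoImplicit false

namespace Fermat.Agent.S21

open MulAction Subgroup Module

section basic

variable {G : Type*} [Group G] {Q : Type*} [MulAction G Q] (k : Type*) [Field k]

/-- The operator `(g · v) q = v (g⁻¹ • q)`. -/
def dim_op (g : G) : (Q → k) →ₗ[k] (Q → k) := LinearMap.funLeft k k (fun q : Q => g⁻¹ • q)

@[simp] theorem dim_op_apply (g : G) (v : Q → k) (q : Q) : dim_op k g v q = v (g⁻¹ • q) := rfl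

theorem dim_op_mul (g h : G) (v : Q → k) : dim_op k (g * h) v = dim_op k g (dim_op k h v) := by
  funext q
  simp [mul_smul]

theorem dim_op_one (v : Q → k) : dim_op k (1 : G) v = v := by
  funext q
  simp

theorem dim_op_of_trivial {g : G} (hg : ∀ q : Q, g • q = q) (v : Q → k) : dim_op k g v = v := by
  funext q
  have : g⁻¹ • q = q := by rw [inv_smul_eq_iff, hg]
  simp [this]

theorem dim_op_inv_op (g : G) (v : Q → k) : dim_op k g⁻¹ (dim_op k g v) = v := by
  rw [← dim_op_mul, inv_mul_cancel, dim_op_one]

theorem dim_op_op_inv (g : G) (v : Q → k) : dim_op k g (dim_op k g⁻¹ v) = v := by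
  rw [← dim_op_mul, mul_inv_cancel, dim_op_one]

theorem dim_op_injective (g : G) : Function.Injective (dim_op (Q := Q) k g) := by
  intro v w h
  have := congrArg (dim_op k g⁻¹) h
  rwa [dim_op_inv_op, dim_op_inv_op] at this

/-- The norm operator `∑_{i<m} c^i`. -/
def dim_norm (c : G) (m : ℕ) : (Q → k) →ₗ[k] (Q → k) :=
  ∑ i ∈ Finset.range m, dim_op k (c ^ i)

theorem dim_norm_apply (c : G) (m : ℕ) (v : Q → k) :
    dim_norm k c m v = ∑ i ∈ Finset.range m, dim_op k (c ^ i) v := by
  simp [dim_norm, LinearMap.sum_apply]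

theorem dim_norm_succ (c : G) (m : ℕ) (v : Q → k) :
    dim_norm k c (m + 1) v = dim_norm k c m v + dim_op k (c ^ m) v := by
  rw [dim_norm_apply, dim_norm_apply, Finset.sum_range_succ]

/-- `N (c v - v) = c^m v - v`. -/
theorem dim_norm_sub (c : G) (m : ℕ) (v : Q → k) :
    dim_norm k c m (dim_op k c v - v) = dim_op k (c ^ m) v - v := by
  induction m with
  | zero => simp [dim_norm_apply, dim_op_one]
  | succ m ih =>
    rw [dim_norm_succ, ih, map_sub, ← dim_op_mul, ← pow_succ]
    abel

theorem dim_norm_sub_of_trivial (c : G) (m : ℕ) (hc : ∀ q : Q, c ^ m • q = q) (v : Q → k) :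
    dim_norm k c m (dim_op k c v - v) = 0 := by
  rw [dim_norm_sub, dim_op_of_trivial k hc, sub_self]

/-- The invariants of `c`. -/
def dim_inv (c : G) : Submodule k (Q → k) :=
  LinearMap.ker (dim_op (Q := Q) k c - LinearMap.id)

theorem dim_mem_inv_iff (c : G) (v : Q → k) : v ∈ dim_inv k c ↔ dim_op k c v = v := by
  rw [dim_inv, LinearMap.mem_ker, LinearMap.sub_apply, LinearMap.id_apply, sub_eq_zero]

theorem dim_mem_inv_iff' (c : G) (v : Q → k) : v ∈ dim_inv k c ↔ ∀ q, v (c • q) = v q := by
  rw [dim_mem_inv_iff]
  constructor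
  · intro h q
    have := congrFun h (c • q)
    simp only [dim_op_apply, inv_smul_smul] at this
    exact this.symm
  · intro h
    funext q
    have := h (c⁻¹ • q)
    simp only [smul_inv_smul] at this
    simp [this]

theorem dim_op_pow_of_mem_inv {c : G} {v : Q → k} (hv : v ∈ dim_inv k c) (i : ℕ) :
    dim_op k (c ^ i) v = v := by
  induction i with
  | zero => rw [pow_zero, dim_op_one]
  | succ i ih => rw [pow_succ, dim_op_mul, (dim_mem_inv_iff k c v).mp hv, ih]

theorem dim_norm_of_mem_inv {c : G} {v : Q → k} (hv : v ∈ dim_inv k c) (m : ℕ) :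
    dim_norm k c m v = (m : k) • v := by
  rw [dim_norm_apply, Finset.sum_congr rfl (fun i _ => dim_op_pow_of_mem_inv k hv i)]
  simp [Nat.cast_smul_eq_nsmul]

end basic

section orbits

variable {G : Type*} [Group G] {Q : Type*} [MulAction G Q] [Fintype Q] (k : Type*) [Field k]

/-- There are at least as many independent invariants as orbits. -/
theorem dim_card_orbits_le (c : G) :
    Nat.card (Quotient (MulAction.orbitRel (zpowers c) Q)) ≤ finrank k (dim_inv (Q := Q) k c) := by
  classical
  let L : (Quotient (MulAction.orbitRel (zpowers c) Q) → k) →ₗ[k] (Q → k) :=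
    LinearMap.funLeft k k (Quotient.mk (MulAction.orbitRel (zpowers c) Q))
  have hL : Function.Injective L :=
    LinearMap.funLeft_injective_of_surjective k k _ Quotient.mk_surjective
  have hrange : LinearMap.range L ≤ dim_inv k c := by
    rintro _ ⟨h, rfl⟩
    rw [dim_mem_inv_iff']
    intro q
    change h (Quotient.mk _ (c • q)) = h (Quotient.mk _ q)
    congr 1
    apply Quotient.sound
    change c • q ∈ MulAction.orbit (zpowers c) q
    exact ⟨⟨c, mem_zpowers c⟩, rfl⟩
  have : Fintype (Quotient (MulAction.orbitRel (zpowers c) Q)) := Fintype.ofFinite _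
  calc Nat.card (Quotient (MulAction.orbitRel (zpowers c) Q))
      = finrank k (Quotient (MulAction.orbitRel (zpowers c) Q) → k) := by
        rw [Module.finrank_fintype_fun_eq_card, Nat.card_eq_fintype_card]
    _ = finrank k (LinearMap.range L) := (LinearMap.finrank_range_of_inj hL).symm
    _ ≤ finrank k (dim_inv (Q := Q) k c) := Submodule.finrank_mono hrange

/-- The kernel of the norm operator has codimension at least the number of orbits. -/
theorem dim_finrank_ker_norm [CharZero k] (c : G) (m : ℕ) (hm : 0 < m) :
    finrank k (LinearMap.ker (dim_norm (Q := Q) k c m))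
      + Nat.card (Quotient (MulAction.orbitRel (zpowers c) Q)) ≤ Fintype.card Q := by
  have h1 := LinearMap.finrank_range_add_finrank_ker (dim_norm (Q := Q) k c m)
  rw [Module.finrank_fintype_fun_eq_card] at h1
  have h2 : dim_inv k c ≤ LinearMap.range (dim_norm (Q := Q) k c m) := by
    intro v hv
    refine ⟨(m : k)⁻¹ • v, ?_⟩
    rw [map_smul, dim_norm_of_mem_inv k hv, smul_smul,
      inv_mul_cancel₀ (Nat.cast_ne_zero.mpr hm.ne'), one_smul]
  have h3 := Submodule.finrank_mono h2
  have h4 := dim_card_orbits_le (Q := Q) k c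
  omega

/-- The sum functional. -/
def dim_sum : (Q → k) →ₗ[k] k := ∑ q : Q, LinearMap.proj q

theorem dim_sum_apply (v : Q → k) : dim_sum k v = ∑ q, v q := by
  simp [dim_sum, LinearMap.sum_apply]

theorem dim_finrank_ker_sum :
    Fintype.card Q ≤ finrank k (LinearMap.ker (dim_sum (Q := Q) k)) + 1 := by
  have h1 := LinearMap.finrank_range_add_finrank_ker (dim_sum (Q := Q) k)
  rw [Module.finrank_fintype_fun_eq_card] at h1
  have h2 : finrank k (LinearMap.range (dim_sum (Q := Q) k)) ≤ 1 := by
    have := Submodule.finrank_le (LinearMap.range (dim_sum (Q := Q) k))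
    rwa [Module.finrank_self] at this
  omega

variable (S U : G) (hgen : closure ({S, U} : Set G) = ⊤)

omit [Fintype Q] in
include hgen in
/-- A function invariant under the generators is invariant. -/
theorem dim_op_eq_of_mem_inv (v : Q → k) (hS : v ∈ dim_inv k S) (hU : v ∈ dim_inv k U) (g : G) :
    dim_op k g v = v := by
  have hg : g ∈ closure ({S, U} : Set G) := by rw [hgen]; trivial
  induction hg using Subgroup.closure_induction with
  | mem x hx =>
    rcases hx with rfl | hx
    · exact (dim_mem_inv_iff k _ v).mp hS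
    · rw [Set.mem_singleton_iff] at hx
      subst hx
      exact (dim_mem_inv_iff k _ v).mp hU
  | one => exact dim_op_one k v
  | mul x y _ _ hx hy => rw [dim_op_mul, hy, hx]
  | inv x _ hx =>
    calc dim_op k x⁻¹ v = dim_op k x⁻¹ (dim_op k x v) := by rw [hx]
      _ = v := dim_op_inv_op k x v

omit [Fintype Q] in
include hgen in
/-- The common invariants of the generators of a transitive group are the constants. -/
theorem dim_finrank_inv_inf_le [MulAction.IsPretransitive G Q] :
    finrank k (dim_inv k S ⊓ dim_inv k U : Submodule k (Q → k)) ≤ 1 := by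
  have h : dim_inv k S ⊓ dim_inv k U ≤ Submodule.span k {(fun _ : Q => (1 : k))} := by
    rintro v ⟨hS, hU⟩
    rcases isEmpty_or_nonempty Q with hQ | ⟨⟨q₀⟩⟩
    · have : v = 0 := by
        funext q
        exact (hQ.false q).elim
      rw [this]
      exact zero_mem _
    · rw [Submodule.mem_span_singleton]
      refine ⟨v q₀, ?_⟩
      funext q
      obtain ⟨g, rfl⟩ := MulAction.exists_smul_eq G q₀ q
      have := congrFun (dim_op_eq_of_mem_inv k S U hgen v hS hU g⁻¹) q₀
      simp only [dim_op_apply, inv_inv] at this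
      simp [this]
  calc finrank k (dim_inv k S ⊓ dim_inv k U : Submodule k (Q → k))
      ≤ finrank k (Submodule.span k {(fun _ : Q => (1 : k))}) := Submodule.finrank_mono h
    _ ≤ 1 := by
        have := finrank_span_le_card (R := k) ({(fun _ : Q => (1 : k))} : Set (Q → k))
        simpa using this

omit [Fintype Q] in
include hgen in
/-- `g v - v` lies in `W` for all `g` as soon as it does for the generators. -/
theorem dim_op_sub_mem (W : Submodule k (Q → k))
    (hS : ∀ v, dim_op k S v - v ∈ W) (hU : ∀ v, dim_op k U v - v ∈ W) (g : G) (v : Q → k) :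
    dim_op k g v - v ∈ W := by
  have hg : g ∈ closure ({S, U} : Set G) := by rw [hgen]; trivial
  induction hg using Subgroup.closure_induction generalizing v with
  | mem x hx =>
    rcases hx with rfl | hx
    · exact hS v
    · rw [Set.mem_singleton_iff] at hx
      subst hx
      exact hU v
  | one => rw [dim_op_one, sub_self]; exact zero_mem _
  | mul x y _ _ hx hy =>
    have : dim_op k (x * y) v - v = (dim_op k x (dim_op k y v) - dim_op k y v)
        + (dim_op k y v - v) := by
      rw [dim_op_mul]
      abel
    rw [this]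
    exact add_mem (hx _) (hy _)
  | inv x _ hx =>
    have : dim_op k x⁻¹ v - v = - (dim_op k x (dim_op k x⁻¹ v) - dim_op k x⁻¹ v) := by
      rw [dim_op_op_inv]
      abel
    rw [this]
    exact neg_mem (hx _)

include hgen in
/-- The functions with zero sum are spanned by the `g v - v`. -/
theorem dim_ker_sum_le [MulAction.IsPretransitive G Q] (W : Submodule k (Q → k))
    (hS : ∀ v, dim_op k S v - v ∈ W) (hU : ∀ v, dim_op k U v - v ∈ W) :
    LinearMap.ker (dim_sum (Q := Q) k) ≤ W := by
  classical
  intro f hf
  rw [LinearMap.mem_ker, dim_sum_apply] at hf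
  rcases isEmpty_or_nonempty Q with hQ | ⟨⟨q₀⟩⟩
  · have : f = 0 := by
      funext q
      exact (hQ.false q).elim
    rw [this]
    exact zero_mem _
  · have hdec : f = ∑ q, f q • ((Pi.single q 1 : Q → k) - Pi.single q₀ 1) := by
      funext x
      simp only [Finset.sum_apply, Pi.smul_apply, Pi.sub_apply, smul_eq_mul, mul_sub,
        Finset.sum_sub_distrib, Pi.single_apply, mul_ite, mul_one, mul_zero]
      rw [Finset.sum_ite_eq Finset.univ x f, if_pos (Finset.mem_univ _)]
      by_cases hx : x = q₀
      · simp [hx, hf]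
      · simp [hx]
    rw [hdec]
    refine Submodule.sum_mem _ fun q _ => Submodule.smul_mem _ _ ?_
    obtain ⟨g, rfl⟩ := MulAction.exists_smul_eq G q₀ q
    have := dim_op_sub_mem k S U hgen W hS hU g (Pi.single q₀ 1)
    convert this using 2
    funext x
    simp only [dim_op_apply, Pi.single_apply]
    by_cases hx : x = g • q₀
    · rw [if_pos hx, if_pos (by rw [hx, inv_smul_smul])]
    · rw [if_neg hx, if_neg (fun h => hx (by rw [← h, smul_inv_smul]))]

end orbits

end Fermat.Agent.S21
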