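import Fermat.Agent.S21.InjCore

/-!
# S21, package INJ (part 2): the anti-holomorphic involution and the class of nice functions
-/

set_option autoImplicit false

noncomputable section

namespace Fermat.Agent.S21

open Fermat.Agent.S22 ModularCurve ModularCurve.Period UpperHalfPlane CongruenceSubgroup
open Filter Topology Function ComplexConjugate
open scoped MatrixGroups ModularForm Manifold

/-- The involution `τ ↦ -conj τ` of `ℍ`. -/
def inj_c (τ : ℍ) : ℍ := ⟨-conj (τ : ℂ), by simpa using τ.im_pos⟩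

@[simp] theorem inj_c_coe (τ : ℍ) : ((inj_c τ : ℍ) : ℂ) = -conj (τ : ℂ) := rfl

@[simp] theorem inj_c_im (τ : ℍ) : (inj_c τ).im = τ.im := by
  show ((inj_c τ : ℍ) : ℂ).im = (τ : ℂ).im
  simp

@[simp] theorem inj_c_inj_c (τ : ℍ) : inj_c (inj_c τ) = τ := by
  apply UpperHalfPlane.ext
  simp

theorem inj_c_ofComplex {z : ℂ} (hz : 0 < z.im) : inj_c (ofComplex z) = ofComplex (-conj z) := by
  apply UpperHalfPlane.ext
  have hz' : 0 < (-conj z).im := by simpa using hz
  rw [inj_c_coe, ofComplex_apply_of_im_pos hz, ofComplex_apply_of_im_pos hz']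

theorem inj_c_smul (δ : SL(2, ℤ)) (τ : ℍ) : inj_c (δ • τ) = jConjSL δ • inj_c τ := by
  apply UpperHalfPlane.ext
  rw [inj_c_coe, per_coe_smul, per_coe_smul, inj_c_coe]
  have e00 : (jConjSL δ).1 0 0 = δ.1 0 0 := jConjMat_apply_zero_zero _
  have e01 : (jConjSL δ).1 0 1 = -δ.1 0 1 := jConjMat_apply_zero_one _
  have e10 : (jConjSL δ).1 1 0 = -δ.1 1 0 := jConjMat_apply_one_zero _
  have e11 : (jConjSL δ).1 1 1 = δ.1 1 1 := jConjMat_apply_one_one _
  rw [e00, e01, e10, e11]
  simp only [map_div₀, map_add, map_mul, map_intCast, Int.cast_neg]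
  rw [← neg_div]
  congr 1 <;> ring

theorem inj_tendsto_c : Tendsto inj_c atImInfty atImInfty := by
  rw [atImInfty, tendsto_comap_iff]
  have : (UpperHalfPlane.im ∘ inj_c) = UpperHalfPlane.im := funext inj_c_im
  rw [this]
  exact tendsto_comap

/-- The conjugate function `τ ↦ conj (Φ (-conj τ))`. -/
def inj_conj (Φ : ℍ → ℂ) : ℍ → ℂ := fun τ => conj (Φ (inj_c τ))

@[simp] theorem inj_conj_apply (Φ : ℍ → ℂ) (τ : ℍ) : inj_conj Φ τ = conj (Φ (inj_c τ)) := rfl

theorem inj_conj_comp_smul (Φ : ℍ → ℂ) (δ : SL(2, ℤ)) :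
    (fun z => inj_conj Φ (δ • z)) = inj_conj (fun z => Φ (jConjSL δ • z)) := by
  funext z
  simp only [inj_conj_apply, inj_c_smul]

/-- The conjugate of a primitive is a primitive. -/
theorem inj_isPrim_conj {B b : ℍ → ℂ} (hB : IsPrim B b) :
    IsPrim (inj_conj B) (fun τ => -(conj (b (inj_c τ)))) := by
  intro τ
  have h1 : HasDerivAt (B ∘ ofComplex) (b (inj_c τ)) (-conj (τ : ℂ)) := hB (inj_c τ)
  have h2 := h1.conj_conj
  have e : conj (-conj (τ : ℂ)) = -(τ : ℂ) := by simp
  rw [e] at h2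
  have h3 : HasDerivAt (fun z : ℂ => -z) (-1) (τ : ℂ) := (hasDerivAt_id (τ : ℂ)).neg
  have h5 : HasDerivAt ((conj ∘ (B ∘ ofComplex) ∘ conj) ∘ fun z : ℂ => -z)
      (-(conj (b (inj_c τ)))) (τ : ℂ) :=
    (HasDerivAt.comp (τ : ℂ) h2 h3).congr_deriv (mul_neg_one _)
  refine h5.congr_of_eventuallyEq ?_
  filter_upwards [isOpen_upperHalfPlaneSet.mem_nhds τ.im_pos] with z hz
  have hz' : 0 < z.im := hz
  simp only [Function.comp_apply, inj_conj_apply, inj_c_ofComplex hz', map_neg]

/-! ### Nice functions -/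

theorem inj_Nice.of_isCuspidal {h : ℝ} {F : ℍ → ℂ} (hF : IsCuspidal h F) : inj_Nice h F :=
  ⟨hF.mdiff, hF.periodic, hF.zero.isBoundedAtImInfty⟩

theorem inj_Nice.const (h : ℝ) (c : ℂ) : inj_Nice h (fun _ : ℍ => c) :=
  ⟨mdifferentiable_const, fun _ => rfl, Filter.const_boundedAtFilter _ c⟩

theorem inj_Nice.add {h : ℝ} {F G : ℍ → ℂ} (hF : inj_Nice h F) (hG : inj_Nice h G) :
    inj_Nice h (F + G) :=
  ⟨hF.mdiff.add hG.mdiff, fun z => by
    have h1 := hF.periodic z
    have h2 := hG.periodic z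
    simp only [Function.comp_apply, Pi.add_apply] at h1 h2 ⊢
    rw [h1, h2], hF.bdd.add hG.bdd⟩

theorem inj_Nice.neg {h : ℝ} {F : ℍ → ℂ} (hF : inj_Nice h F) : inj_Nice h (-F) :=
  ⟨hF.mdiff.neg, fun z => by
    have h1 := hF.periodic z
    simp only [Function.comp_apply, Pi.neg_apply] at h1 ⊢
    rw [h1], hF.bdd.neg⟩

theorem inj_Nice.sub {h : ℝ} {F G : ℍ → ℂ} (hF : inj_Nice h F) (hG : inj_Nice h G) :
    inj_Nice h (F - G) := by
  rw [sub_eq_add_neg]
  exact hF.add hG.neg

theorem inj_Nice.const_mul {h : ℝ} {F : ℍ → ℂ} (hF : inj_Nice h F) (a : ℂ) :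
    inj_Nice h (fun z => a * F z) :=
  ⟨mdifferentiable_const.mul hF.mdiff, fun z => by
    have h1 := hF.periodic z
    simp only [Function.comp_apply] at h1 ⊢
    rw [h1], (Filter.const_boundedAtFilter _ a).mul hF.bdd⟩

theorem inj_Nice.congr {h : ℝ} {F G : ℍ → ℂ} (hF : inj_Nice h F) (hFG : ∀ z, G z = F z) :
    inj_Nice h G := by
  have : G = F := funext hFG
  rwa [this]

theorem inj_Nice.conj {h : ℝ} {F : ℍ → ℂ} (hF : inj_Nice h F) : inj_Nice h (inj_conj F) := by
  refine ⟨?_, ?_, ?_⟩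
  · -- holomorphy: via primitives is not available, use differentiability directly
    rw [UpperHalfPlane.mdifferentiable_iff]
    intro z hz
    have hz' : 0 < z.im := hz
    have hd : DifferentiableAt ℂ (F ∘ ofComplex) (-conj z) := by
      have := UpperHalfPlane.mdifferentiable_iff.mp hF.mdiff
      exact (this (-conj z) (by simpa using hz')).differentiableAt
        (isOpen_upperHalfPlaneSet.mem_nhds (by simpa using hz'))
    have h2 : DifferentiableAt ℂ (conj ∘ (F ∘ ofComplex) ∘ conj) (conj (-conj z)) :=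
      hd.conj_conj
    have e : conj (-conj z) = -z := by simp
    rw [e] at h2
    have h3 : DifferentiableAt ℂ (fun w : ℂ => -w) z := differentiableAt_id.neg
    have h4 : DifferentiableAt ℂ ((conj ∘ (F ∘ ofComplex) ∘ conj) ∘ fun w : ℂ => -w) z :=
      DifferentiableAt.comp z h2 h3
    refine (h4.congr_of_eventuallyEq ?_).differentiableWithinAt
    filter_upwards [isOpen_upperHalfPlaneSet.mem_nhds hz'] with w hw
    have hw' : 0 < w.im := hw
    simp only [Function.comp_apply, inj_conj_apply, inj_c_ofComplex hw', map_neg]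
  · intro z
    simp only [Function.comp_apply, inj_conj_apply]
    by_cases hz : 0 < z.im
    · have hz' : 0 < (z + h).im := by simpa using hz
      rw [inj_c_ofComplex hz, inj_c_ofComplex hz']
      have := hF.periodic.sub_eq (-conj z)
      simp only [Function.comp_apply] at this
      rw [← this]
      congr 3
      simp
      ring
    · have hz0 : z.im ≤ 0 := not_lt.mp hz
      have hz' : (z + h).im ≤ 0 := by simpa using hz0
      rw [ofComplex_apply_of_im_nonpos hz0, ofComplex_apply_of_im_nonpos hz']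
  · obtain ⟨M, A, hMA⟩ := UpperHalfPlane.isBoundedAtImInfty_iff.mp hF.bdd
    refine UpperHalfPlane.isBoundedAtImInfty_iff.mpr ⟨M, A, fun z hz => ?_⟩
    rw [inj_conj_apply, RCLike.norm_conj]
    exact hMA _ (by simpa using hz)

theorem inj_Nice.cexp {h : ℝ} {F : ℍ → ℂ} (hF : inj_Nice h F) :
    inj_Nice h (fun z => Complex.exp (F z)) := by
  refine ⟨?_, ?_, ?_⟩
  · rw [UpperHalfPlane.mdifferentiable_iff]
    exact (UpperHalfPlane.mdifferentiable_iff.mp hF.mdiff).cexp
  · intro z
    have h1 := hF.periodic z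
    simp only [Function.comp_apply] at h1 ⊢
    rw [h1]
  · obtain ⟨M, A, hMA⟩ := UpperHalfPlane.isBoundedAtImInfty_iff.mp hF.bdd
    refine UpperHalfPlane.isBoundedAtImInfty_iff.mpr ⟨Real.exp M, A, fun z hz => ?_⟩
    rw [Complex.norm_exp, Real.exp_le_exp]
    exact (Complex.re_le_norm _).trans (hMA z hz)

end Fermat.Agent.S21
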