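import Fermat.Agent.S21.Prim

/-!
# S21, package INJ (core): a maximum principle on `Γ₀(N) \ ℍ` without cusp analysis

`inj_core` : a holomorphic function `E` on `ℍ` whose norm is `Γ₀(N)`-invariant and such that every
translate `E ∘ δ`, `δ ∈ SL(2, ℤ)`, is `h`-periodic and bounded at `i∞`, is constant.
-/

set_option autoImplicit false

noncomputable section

namespace Fermat.Agent.S21

open Fermat.Agent.S22 ModularCurve ModularCurve.Period UpperHalfPlane CongruenceSubgroup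
open Filter Topology Function
open scoped MatrixGroups ModularForm Manifold

local notation "𝕢" => Function.Periodic.qParam

/-- Holomorphic, `h`-periodic and bounded at `i∞`. -/
structure inj_Nice (h : ℝ) (Φ : ℍ → ℂ) : Prop where
  mdiff : MDiff Φ
  periodic : Function.Periodic (Φ ∘ ofComplex) h
  bdd : IsBoundedAtImInfty Φ

theorem inj_mdiff_smul (δ : SL(2, ℤ)) : MDiff (fun τ : ℍ => δ • τ) := by
  have h : (0 : ℝ) < ((δ : GL (Fin 2) ℝ)).det.val := by
    simp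
  exact mdifferentiable_smul h

/-- Every element of `SL(2, ℤ)` is `g₀ * r` with `g₀ ∈ Γ₀(N)` and `r` in a finite set of
representatives. -/
theorem inj_exists_rep (N : ℕ) (γ : SL(2, ℤ)) :
    ∃ g₀ ∈ Gamma0 N, γ = g₀ * (Quotient.out (QuotientGroup.mk γ⁻¹ : SL(2, ℤ) ⧸ Gamma0 N))⁻¹ := by
  obtain ⟨g, hg⟩ := QuotientGroup.mk_out_eq_mul (Gamma0 N) γ⁻¹
  refine ⟨(g : SL(2, ℤ)), g.2, ?_⟩
  rw [hg]
  group

theorem inj_norm_qParam_le {h : ℝ} (hh : 0 < h) (ξ : ℍ) (hξ : 1 / 2 ≤ ξ.im) :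
    ‖𝕢 h (ξ : ℂ)‖ ≤ Real.exp (-Real.pi / h) := by
  rw [Function.Periodic.norm_qParam, Real.exp_le_exp]
  have hpi := Real.pi_pos
  rw [div_le_div_iff_of_pos_right hh]
  have : (ξ : ℂ).im = ξ.im := rfl
  rw [this]
  nlinarith

theorem inj_core (N : ℕ) [NeZero N] (E : ℍ → ℂ) (h : ℝ) (hh : 0 < h)
    (hinv : ∀ γ ∈ Gamma0 N, ∀ z : ℍ, ‖E (γ • z)‖ = ‖E z‖)
    (hnice : ∀ δ : SL(2, ℤ), inj_Nice h (fun z => E (δ • z))) :
    ∃ c : ℂ, ∀ z, E z = c := by
  classical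
  have : Finite (SL(2, ℤ) ⧸ Gamma0 N) := Subgroup.finite_quotient_of_finiteIndex
  have : Nonempty (SL(2, ℤ) ⧸ Gamma0 N) := ⟨QuotientGroup.mk 1⟩
  set r : (SL(2, ℤ) ⧸ Gamma0 N) → SL(2, ℤ) := fun q => (Quotient.out q)⁻¹ with hr
  set φ : (SL(2, ℤ) ⧸ Gamma0 N) → ℂ → ℂ := fun q => cuspFunction h (fun z => E (r q • z)) with hφ
  have hφd : ∀ q, DifferentiableOn ℂ (φ q) (Metric.ball 0 1) := fun q =>
    differentiableOn_cuspFunction_ball hh (hnice (r q)).periodic (hnice (r q)).mdiff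
      (hnice (r q)).bdd
  have hφq : ∀ q (τ : ℍ), φ q (𝕢 h τ) = E (r q • τ) := fun q τ =>
    eq_cuspFunction (f := fun z => E (r q • z)) τ hh.ne' (hnice (r q)).periodic
  set r₀ : ℝ := Real.exp (-Real.pi / h) with hr₀
  have hr₀nn : 0 ≤ r₀ := (Real.exp_pos _).le
  have hr₀lt : r₀ < 1 := by
    rw [hr₀, ← Real.exp_zero, Real.exp_lt_exp]
    exact div_neg_of_neg_of_pos (neg_lt_zero.mpr Real.pi_pos) hh
  -- maxima on the closed ball
  have hmax : ∀ q, ∃ x ∈ Metric.closedBall (0 : ℂ) r₀,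
      ∀ y ∈ Metric.closedBall (0 : ℂ) r₀, ‖φ q y‖ ≤ ‖φ q x‖ := by
    intro q
    obtain ⟨x, hx, hxmax⟩ := (isCompact_closedBall (0 : ℂ) r₀).exists_isMaxOn
      (Metric.nonempty_closedBall.mpr hr₀nn)
      ((hφd q).continuousOn.mono (Metric.closedBall_subset_ball hr₀lt)).norm
    exact ⟨x, hx, fun y hy => hxmax hy⟩
  choose x hx hxmax using hmax
  obtain ⟨q₀, hq₀⟩ := Finite.exists_max (fun q => ‖φ q (x q)‖)
  -- global bound
  have hbound : ∀ z : ℍ, ‖E z‖ ≤ ‖φ q₀ (x q₀)‖ := by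
    intro z
    obtain ⟨γ, hγ⟩ := ModularGroup.exists_one_half_le_im_smul z
    obtain ⟨g₀, hg₀, hrep⟩ := inj_exists_rep N γ⁻¹
    rw [inv_inv] at hrep
    set q : SL(2, ℤ) ⧸ Gamma0 N := QuotientGroup.mk γ with hq
    have hz : z = g₀ • (r q • (γ • z)) := by
      rw [← mul_smul, ← mul_smul]
      have : g₀ * r q * γ = 1 := by
        have : g₀ * r q = γ⁻¹ := hrep.symm
        rw [this, inv_mul_cancel]
      rw [this, one_smul]
    calc ‖E z‖ = ‖E (g₀ • (r q • (γ • z)))‖ := by rw [← hz]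
      _ = ‖E (r q • (γ • z))‖ := hinv g₀ hg₀ _
      _ = ‖φ q (𝕢 h ((γ • z : ℍ) : ℂ))‖ := by rw [hφq]
      _ ≤ ‖φ q (x q)‖ := hxmax q _ (by
          rw [Metric.mem_closedBall, dist_zero_right]
          exact inj_norm_qParam_le hh _ hγ)
      _ ≤ ‖φ q₀ (x q₀)‖ := hq₀ q
  -- the cusp function at `q₀` is constant
  have hconst := Complex.eq_const_of_exists_le (hφd q₀) hr₀nn hr₀lt (fun y hy => by
    rcases eq_or_ne y 0 with rfl | hy0
    · exact ⟨0, Metric.mem_closedBall_self hr₀nn, le_rfl⟩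
    · refine ⟨x q₀, hx q₀, ?_⟩
      have hy1 : ‖y‖ < 1 := by simpa using hy
      have him : 0 < (Function.Periodic.invQParam h y).im :=
        Function.Periodic.im_invQParam_pos_of_norm_lt_one hh hy1 hy0
      have hqy : 𝕢 h (Function.Periodic.invQParam h y) = y :=
        Function.Periodic.qParam_right_inv hh.ne' hy0
      have := hφq q₀ ⟨Function.Periodic.invQParam h y, him⟩
      rw [UpperHalfPlane.coe_mk, hqy] at this
      rw [this]
      exact hbound _)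
  refine ⟨φ q₀ 0, fun z => ?_⟩
  have hz : z = r q₀ • ((r q₀)⁻¹ • z) := by rw [← mul_smul, mul_inv_cancel, one_smul]
  rw [hz, ← hφq q₀]
  exact hconst (by simpa using Function.Periodic.norm_qParam_lt_one hh ((r q₀)⁻¹ • z).im_pos)

end Fermat.Agent.S21
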