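import Mathlib
import Fermat.Prelude.Def_ModularCurve_PeriodHomPair
import Fermat.Prelude.Def_ModularCurve_GenusNumerics
import Fermat.Agent.S24.Defs

/-!
# S21 — SPECIFICATION of the packages (statements only, all `sorry`)

Never import this file from a finished module (namespace `Fermat.Agent.S21.Spec`; the packages
re-prove the statements under the same names in namespace `Fermat.Agent.S21`).
-/

set_option autoImplicit false

namespace Fermat.Agent.S21.Spec

open Fermat.Agent.S24 ModularCurve ModularCurve.Period CongruenceSubgroup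
open scoped MatrixGroups

/-- [S21-PRIM] every weight-2 cusp form has an equivariant primitive. -/
theorem s21_exists_primitive (N : ℕ) [NeZero N] (f : CuspForm (Gamma0 N) 2) :
    ∃ F : UpperHalfPlane → ℂ, HasEquivariantPrimitive N f F := sorry

/-- [S21-PRIM'] the primitive is unique, hence `periodMap` is given by any primitive. -/
theorem s21_periodMap_apply (N : ℕ) [NeZero N] (f : CuspForm (Gamma0 N) 2)
    {F : UpperHalfPlane → ℂ} (hF : HasEquivariantPrimitive N f F) (γ : Gamma0 N)
    (z : UpperHalfPlane) :
    periodMap N f (Additive.ofMul γ) = F ((γ : SL(2, ℤ)) • z) - F z := sorry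

/-- [S21-LIN] the period map is linear. -/
theorem s21_existsPeriodMapLinear (N : ℕ) [NeZero N] : ExistsPeriodMapLinear N := sorry

/-- [S21-PAR] periods of parabolic elements (and of `-1`) vanish. -/
theorem s21_periodMap_mem (N : ℕ) [NeZero N] (f : CuspForm (Gamma0 N) 2) :
    periodMap N f ∈ parabolicHoms ℂ (Gamma0 N) ℂ := sorry

/-- [S21-INJ] Eichler–Shimura injectivity (maximum principle for harmonic functions on the
compactified quotient). -/
theorem s21_injective (N : ℕ) [NeZero N] : Function.Injective (periodHomPair N) := sorry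

/-- [S21-DIM] the upper bound `dim Hom_par(Γ₀(N), ℂ) ≤ 2 g` (Shapiro + linear algebra on the
permutation module of `SL(2,ℤ) ⧸ Γ₀(N)`; only uses that `S`, `T` generate, `S² = (S T)³ = -1`). -/
theorem s21_dim (N : ℕ) [NeZero N] :
    Module.Finite ℂ (parabolicHoms ℂ (Gamma0 N) ℂ) ∧
    (Module.finrank ℂ (parabolicHoms ℂ (Gamma0 N) ℂ) : ℤ) + 
        Nat.card (Quotient (s24Orb N (ModularGroup.S * ModularGroup.T)))
        + Nat.card (Quotient (s24Orb N ModularGroup.S))
        + Nat.card (Quotient (s24Orb N ModularGroup.T))
      ≤ (Nat.card (s24Q N) : ℤ) + 2 := sorry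

/-- [S21-ASM] S21 from S20. -/
theorem s21_main (N : ℕ) [NeZero N]
    (h20 : (Module.finrank ℂ (CuspForm (Gamma0 N) 2) : ℚ) = genusFormula N) :
    Function.Injective (periodHomPair N)
      ∧ LinearMap.range (periodHomPair N) = parabolicHoms ℂ (Gamma0 N) ℂ := sorry

end Fermat.Agent.S21.Spec
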